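import Fermat.Agent.S19.A.Defs

/-!
# S19 / A : `HasFlatModel ⇒ ∃ FlatOrder`   (TASK S19/A-ToOrder)
-/

set_option autoImplicit false

namespace Fermat.Agent.S19.A

/-- Take the image of `H` under `u ↦ (x ↦ (e.symm x) u)` (an algebra hom `H →ₐ (G → Qb)`;
`AlgHom.range`).  `equiv`: for `f₀ = e.symm x` and `g₀ = σ ∘ f₀` the hypothesis gives
`e g₀ = act σ x`.  `fg`: image of a finite module.  `sep`: `e.symm` injective.  `comul`:
`e.symm (x + y) = e.symm x * e.symm y`, `AlgHom.convMul_apply` and a representation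
`comul u = ∑ a_i ⊗ b_i` (`Coalgebra.Repr` / `TensorProduct.exists_finset`). No Cartier theorem is
needed since we pass to the image. -/
theorem HasFlatModel.exists_flatOrder {ℓ : ℕ} {G : Type} [AddCommGroup G] {act : GQ → G → G}
    (h : HasFlatModel ℓ G act) : ∃ H : Subalgebra (Zl ℓ) (G → Qb), FlatOrder ℓ act H := by
  classical
  obtain ⟨H, _, _, hfin, -, -, e, hadd, hequiv⟩ := h
  let Ψ : H →ₐ[Zl ℓ] (G → Qb) := AlgHom.pi (fun x => (e.symm x).ofConv)
  have hΨ : ∀ u x, Ψ u x = (e.symm x) u := fun _ _ => rfl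
  refine ⟨Ψ.range, ?_, ?_, ?_, ?_⟩
  · rintro _ ⟨u, rfl⟩ σ x
    let σ' : Qb →ₐ[Zl ℓ] Qb := (σ : Qb →ₐ[ℚ] Qb).restrictScalars (Zl ℓ)
    have h1 := hequiv σ (e.symm x) (WithConv.toConv (σ'.comp (e.symm x).ofConv)) (fun _ => rfl)
    rw [e.apply_symm_apply] at h1
    show Ψ u (act σ x) = σ (Ψ u x)
    rw [hΨ, ← h1, e.symm_apply_apply]
    rfl
  · have h1 : Subalgebra.toSubmodule Ψ.range = LinearMap.range Ψ.toLinearMap := rfl
    rw [h1, LinearMap.range_eq_map]
    exact (Module.Finite.fg_top).map _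
  · intro x y hxy
    by_contra hcon
    push Not at hcon
    apply hxy
    apply e.symm.injective
    apply WithConv.ext
    apply AlgHom.ext
    intro u
    exact hcon (Ψ u) ⟨u, rfl⟩
  · rintro _ ⟨u, rfl⟩
    let 𝓡 := Coalgebra.Repr.arbitrary (Zl ℓ) u
    refine ⟨𝓡.index, inferInstance, fun i => Ψ (𝓡.left i), fun i => Ψ (𝓡.right i),
      fun i => ⟨_, rfl⟩, fun i => ⟨_, rfl⟩, fun x y => ?_⟩
    have h1 : e.symm (x + y) = e.symm x * e.symm y := by
      apply e.injective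
      rw [hadd, e.apply_symm_apply, e.apply_symm_apply, e.apply_symm_apply]
    show Ψ u (x + y) = _
    rw [hΨ, h1, AlgHom.convMul_apply, ← 𝓡.eq, map_sum, ← Finset.sum_coe_sort]
    refine Finset.sum_congr rfl fun i _ => ?_
    rw [Algebra.TensorProduct.lift_tmul]
    rfl

end Fermat.Agent.S19.A
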