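import Fermat.Agent.S19.A.Top
import Fermat.Agent.S17.T1.Inputs

/-!
# S19 / A : the torsion of `J₀(p)` is a finite smooth Galois module   (TASK S19/A4-TopJ)
-/

set_option autoImplicit false

open ModularCurve

namespace Fermat.Agent.S19.A

/-- `one`, `mul`, `add`: the `DistribMulAction` of `GQ` on `JZero p` (`Subtype.ext`);
`smooth`: `Fermat.Agent.S17.class_smooth`. -/
theorem isGalAction_torsAct (p : ℕ) [NeZero p] (n : ℤ) : IsGalAction (torsAct p n) := by
  refine ⟨fun x => Subtype.ext ?_, fun σ τ x => Subtype.ext ?_, fun σ x y => Subtype.ext ?_,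
    fun x => ?_⟩
  · rw [coe_torsAct, one_smul]
  · rw [coe_torsAct, coe_torsAct, coe_torsAct, mul_smul]
  · rw [coe_torsAct, Submodule.coe_add, Submodule.coe_add, coe_torsAct, coe_torsAct, smul_add]
  · obtain ⟨L, hL, h⟩ := Fermat.Agent.S17.class_smooth p (x : JZero p)
    exact ⟨L, hL, fun σ hσ => Subtype.ext (by rw [coe_torsAct]; exact h σ hσ)⟩

/-- `J(ℚ̄)[m]` is finite (as `Fermat.Agent.S17.G.finite_two_torsion`). -/
theorem TopJ_finite_nsmul_torsion (p : ℕ) [NeZero p] (m : ℕ) (hm : 0 < m) :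
    {y : JZero p | m • y = 0}.Finite := by
  have h2 := Fermat.Agent.S17.F.torsion_finite p m hm
  have hinj : Function.Injective (Fermat.Agent.S17.G.extPic Fermat.Agent.S17.embC p :
      Fermat.Agent.S17.G.JL Fermat.Agent.S17.Kb p → Fermat.Agent.S17.G.JL ℂ p) :=
    Fermat.Agent.S17.G.extPic_injective
  refine Set.Finite.of_finite_image (f := (Fermat.Agent.S17.G.extPic Fermat.Agent.S17.embC p :
      Fermat.Agent.S17.G.JL Fermat.Agent.S17.Kb p → Fermat.Agent.S17.G.JL ℂ p))
    (h2.subset ?_) hinj.injOn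
  rintro _ ⟨y, hy, rfl⟩
  have hy' : m • y = 0 := hy
  show m • Fermat.Agent.S17.G.extPic Fermat.Agent.S17.embC p y = 0
  rw [← map_nsmul, hy', map_zero]

/-- `Fermat.Agent.S17.G.finite_torsion` (see the proof of `Fermat.Agent.S17.G.h2fin`), with
`n.natAbs`. -/
theorem finite_torsionBy (p : ℕ) [NeZero p] (n : ℤ) (hn : n ≠ 0) :
    Finite (Submodule.torsionBy ℤ (JZero p) n) := by
  have h1 := TopJ_finite_nsmul_torsion p n.natAbs (Int.natAbs_pos.mpr hn)
  have h2 : ((Submodule.torsionBy ℤ (JZero p) n : Submodule ℤ (JZero p)) : Set (JZero p))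
      ⊆ {y : JZero p | n.natAbs • y = 0} := by
    intro y hy
    have hy' : n • y = 0 := (Submodule.mem_torsionBy_iff _ _).mp hy
    show n.natAbs • y = 0
    rw [← natCast_zsmul]
    rcases Int.natAbs_eq n with h | h
    · rw [← h, hy']
    · have : ((n.natAbs : ℕ) : ℤ) = -n := by omega
      rw [this, neg_smul, hy', neg_zero]
  exact (h1.subset h2).to_subtype

end Fermat.Agent.S19.A
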