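import Mathlib
import Fermat.Prelude.Def_GaloisRep_Flat

/-!
# S19 / A : definitions

* `HasFlatModel ℓ G act` : the frozen existential of S19 / `IsFlatAt` for a finite Galois module `G`.
* `FlatOrder ℓ act H`   : `H ⊂ Map(G, Qbar)` is a `ℤ_(ℓ)`-order of Galois equivariant functions which
  separates points and is closed under comultiplication.
* `UnramBase`, `LocalOrder` : the same over the strictly local unramified base `R' = A ∩ Qbar^I`,
  with a Frobenius lift `φ`.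
-/

set_option autoImplicit false

namespace Fermat.Agent.S19.A

/-- `Qbar`. -/
abbrev Qb : Type := AlgebraicClosure ℚ

/-- the absolute Galois group of `ℚ`. -/
abbrev GQ : Type := Qb ≃ₐ[ℚ] Qb

/-- `ℤ_(ℓ)`. -/
abbrev Zl (ℓ : ℕ) : Subring ℚ := GaloisRep.ratLocalizedAt ℓ

/-- the frozen existential: `G` is the group of `Qbar`-points of a finite flat commutative group
scheme over `ℤ_(ℓ)`, Galois equivariantly. -/
def HasFlatModel (ℓ : ℕ) (G : Type) [AddCommGroup G] (act : GQ → G → G) : Prop :=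
  ∃ (H : Type) (_ : CommRing H) (_ : HopfAlgebra (Zl ℓ) H),
    Module.Finite (Zl ℓ) H ∧ Module.Flat (Zl ℓ) H ∧ Coalgebra.IsCocomm (Zl ℓ) H ∧
    ∃ e : WithConv (H →ₐ[Zl ℓ] Qb) ≃ G,
      (∀ f g, e (f * g) = e f + e g) ∧
      ∀ (σ : GQ) (f g : WithConv (H →ₐ[Zl ℓ] Qb)), (∀ h : H, g h = σ (f h)) → e g = act σ (e f)

/-- `act` is a smooth action of `GQ` on the abelian group `G` by automorphisms. -/
structure IsGalAction {G : Type} [AddCommGroup G] (act : GQ → G → G) : Prop where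
  one : ∀ x, act 1 x = x
  mul : ∀ σ τ x, act (σ * τ) x = act σ (act τ x)
  add : ∀ σ x y, act σ (x + y) = act σ x + act σ y
  smooth : ∀ x, ∃ L : IntermediateField ℚ Qb, FiniteDimensional ℚ L ∧
    ∀ σ ∈ L.fixingSubgroup, act σ x = x

/-- closure under comultiplication of a set of functions on `G`. -/
def ComulClosed {G : Type} [Add G] (S : Set (G → Qb)) : Prop :=
  ∀ f ∈ S, ∃ (ι : Type) (_ : Fintype ι) (a b : ι → G → Qb), (∀ i, a i ∈ S) ∧ (∀ i, b i ∈ S) ∧
    ∀ x y, f (x + y) = ∑ i, a i x * b i y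

/-- a `ℤ_(ℓ)`-order of equivariant functions, closed under comultiplication. -/
structure FlatOrder (ℓ : ℕ) {G : Type} [AddCommGroup G] (act : GQ → G → G)
    (H : Subalgebra (Zl ℓ) (G → Qb)) : Prop where
  equiv : ∀ f ∈ H, ∀ (σ : GQ) (x : G), f (act σ x) = σ (f x)
  fg : (Subalgebra.toSubmodule H).FG
  sep : ∀ x y : G, x ≠ y → ∃ f ∈ H, f x ≠ f y
  comul : ComulClosed (H : Set (G → Qb))

/-- `R' ⊂ Qbar` is a discrete valuation ring with uniformiser `ℓ`, whose fraction field is the fixed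
field of `I`, and `φ` induces a Frobenius lift on it. -/
structure UnramBase (ℓ : ℕ) (I : Subgroup GQ) (φ : GQ) (R' : Subring Qb) : Prop where
  pid : IsPrincipalIdealRing R'
  unit_or_dvd : ∀ a : R', IsUnit a ∨ (ℓ : R') ∣ a
  not_unit : ¬ IsUnit (ℓ : R')
  fixed : ∀ c : Qb, (∀ σ ∈ I, σ c = c) → ∃ n : ℕ, (ℓ : Qb) ^ n * c ∈ R'
  frob_mem : ∀ a ∈ R', φ a ∈ R'
  frob : ∀ a ∈ R', ∃ b ∈ R', φ a - a ^ ℓ = (ℓ : Qb) * b

/-- an `R'`-order of `I`-equivariant functions, closed under comultiplication and under the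
Frobenius lift `φ`. -/
structure LocalOrder {G : Type} [AddCommGroup G] (act : GQ → G → G) (I : Subgroup GQ) (φ : GQ)
    (R' : Subring Qb) (H' : Subalgebra R' (G → Qb)) : Prop where
  equiv : ∀ f ∈ H', ∀ σ ∈ I, ∀ x : G, f (act σ x) = σ (f x)
  fg : (Subalgebra.toSubmodule H').FG
  sep : ∀ x y : G, x ≠ y → ∃ f ∈ H', f x ≠ f y
  comul : ComulClosed (H' : Set (G → Qb))
  frob : ∀ f ∈ H', (fun x => φ (f (act φ⁻¹ x))) ∈ H'

end Fermat.Agent.S19.A
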