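import Fermat.Agent.S19.A.Lin

/-!
# S19 / A : an order of equivariant functions has a basis which is an `Ω`-basis of all functions
(TASK S19/A-Basis; Mathlib + `Lin` only)
-/

set_option autoImplicit false

namespace Fermat.Agent.S19.A

/-- `R` a PID, `R → Ω` injective, `H ⊂ (X → Ω)` an `R`-subalgebra, finitely generated as a module,
consisting of equivariant functions and separating the points of the finite set `X`.  Then `H` has a
finite `R`-basis which is `Ω`-linearly independent and spans all functions.

Proof: `H` is torsion free (`R → Ω` injective, `Ω` a field) and finite, hence free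
(`Module.basisOfFiniteTypeTorsionFree'`); the family `(b i : X → Ω)` is `R`-independent, hence
`Ω`-independent by `linearIndependent_of_equivariant`; its `Ω`-span contains `H`, and
`span Ω H = ⊤` by `span_eq_top_of_separates`. -/
theorem exists_basis_of_order {R Ω X T : Type*} [CommRing R] [IsDomain R] [IsPrincipalIdealRing R]
    [Field Ω] [Algebra R Ω] (inj0 : Function.Injective (algebraMap R Ω)) [Finite X]
    (s : T → Ω →+* Ω) (a : T → X → X) (ha : ∀ t, Function.Surjective (a t))
    (hfix : ∀ c : Ω, (∀ t, s t c = c) →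
      ∃ d r : R, algebraMap R Ω d ≠ 0 ∧ algebraMap R Ω d * c = algebraMap R Ω r)
    (H : Subalgebra R (X → Ω)) (hfg : (Subalgebra.toSubmodule H).FG)
    (hequiv : ∀ f ∈ H, ∀ t x, f (a t x) = s t (f x))
    (hsep : ∀ x y : X, x ≠ y → ∃ f ∈ H, f x ≠ f y) :
    ∃ (ι : Type) (_ : Fintype ι) (b : Module.Basis ι R H),
      LinearIndependent Ω (fun i => (b i : X → Ω)) ∧
        Submodule.span Ω (Set.range fun i => (b i : X → Ω)) = ⊤ := by
  classical
  haveI : Module.Finite R H := Module.Finite.of_fg hfg
  haveI : Module.IsTorsionFree R (X → Ω) := by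
    haveI : FaithfulSMul R Ω := (faithfulSMul_iff_algebraMap_injective _ _).mpr inj0
    infer_instance
  haveI : Module.IsTorsionFree R H :=
    Function.Injective.moduleIsTorsionFree (Subalgebra.val H).toLinearMap Subtype.val_injective
      (fun _ _ => rfl)
  obtain ⟨n, b⟩ := Module.basisOfFiniteTypeTorsionFree' (R := R) (M := H)
  have hR : LinearIndependent R (fun i => ((b i : H) : X → Ω)) :=
    b.linearIndependent.map' (Subalgebra.val H).toLinearMap
      (LinearMap.ker_eq_bot.mpr Subtype.val_injective)
  have hli : LinearIndependent Ω (fun i => ((b i : H) : X → Ω)) :=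
    linearIndependent_of_equivariant s a ha hfix _ (fun i t x => hequiv _ (b i).2 t x) hR
  refine ⟨Fin n, inferInstance, b, hli, ?_⟩
  have hspanH : Submodule.span Ω (H : Set (X → Ω)) = ⊤ :=
    span_eq_top_of_separates (H : Set (X → Ω)) H.one_mem (fun f hf g hg => H.mul_mem hf hg) hsep
  rw [eq_top_iff, ← hspanH, Submodule.span_le]
  intro φ hφ
  have h1 := b.sum_repr ⟨φ, hφ⟩
  have h2 : φ = ∑ i, (b.repr ⟨φ, hφ⟩ i) • ((b i : H) : X → Ω) := by
    have h4 := congrArg (Subalgebra.val H) h1
    rw [map_sum] at h4
    exact h4.symm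
  rw [h2]
  refine Submodule.sum_mem _ fun i _ => ?_
  rw [← algebraMap_smul Ω]
  exact Submodule.smul_mem _ _ (Submodule.subset_span ⟨i, rfl⟩)

end Fermat.Agent.S19.A
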