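import Fermat.Agent.S19.A.Defs

/-!
# S19 / A : Galois equivariant functions separate the points of a smooth `GQ`-set (TASK S19/A-Smooth)
-/

set_option autoImplicit false

namespace Fermat.Agent.S19.A

/-- If `y ∉ GQ x` take the indicator function of the orbit of `x`.  If `y = τ x ≠ x`: the
stabiliser `U` of `x` contains `L.fixingSubgroup`, `L/ℚ` finite, so it is open, hence closed, hence
`U = fixingSubgroup (fixedField U)` (`InfiniteGalois.fixingSubgroup_fixedField`); as `τ ∉ U` there is
`a ∈ fixedField U` with `τ a ≠ a`; put `f (σ x) = σ a` on the orbit of `x` and `0` elsewhere. -/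
theorem exists_equivariant_separating {G : Type} [AddCommGroup G] {act : GQ → G → G}
    (hact : IsGalAction act) {x y : G} (hxy : x ≠ y) :
    ∃ f : G → Qb, (∀ (σ : GQ) (z : G), f (act σ z) = σ (f z)) ∧ f x ≠ f y := by
  classical
  -- the stabiliser of `x`
  let U : Subgroup GQ :=
    { carrier := {σ | act σ x = x}
      one_mem' := hact.one x
      mul_mem' := by
        intro a b ha hb
        change act (a * b) x = x
        rw [hact.mul, show act b x = x from hb, show act a x = x from ha]
      inv_mem' := by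
        intro a ha
        change act a⁻¹ x = x
        have h1 : act a⁻¹ (act a x) = x := by rw [← hact.mul, inv_mul_cancel, hact.one]
        rwa [show act a x = x from ha] at h1 }
  have hUmem : ∀ σ : GQ, σ ∈ U ↔ act σ x = x := fun σ => Iff.rfl
  -- the function attached to an element fixed by `U`
  have key : ∀ a : Qb, (∀ σ ∈ U, σ a = a) → ∃ f : G → Qb,
      (∀ (σ : GQ) (z : G), f (act σ z) = σ (f z)) ∧ (∀ σ, f (act σ x) = σ a) ∧
        ∀ z, (¬ ∃ σ, act σ x = z) → f z = 0 := by
    intro a ha
    have hwd : ∀ σ τ : GQ, act σ x = act τ x → σ a = τ a := by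
      intro σ τ h
      have h1 : τ⁻¹ * σ ∈ U := by
        rw [hUmem, hact.mul, h, ← hact.mul, inv_mul_cancel, hact.one]
      have h2 : τ⁻¹ (σ a) = a := ha _ h1
      have h3 := congrArg τ h2
      rw [← h3]
      exact (τ.apply_symm_apply _).symm
    refine ⟨fun z => if h : ∃ σ, act σ x = z then (Classical.choose h) a else 0, ?_, ?_, ?_⟩
    · intro σ z
      by_cases h : ∃ τ, act τ x = z
      · obtain ⟨τ, rfl⟩ := h
        have h1 : ∃ τ', act τ' x = act τ x := ⟨τ, rfl⟩
        have h2 : ∃ τ', act τ' x = act σ (act τ x) := ⟨σ * τ, hact.mul _ _ _⟩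
        simp only [dif_pos h1, dif_pos h2]
        rw [hwd _ (σ * τ) ((Classical.choose_spec h2).trans (hact.mul _ _ _).symm),
          hwd _ τ (Classical.choose_spec h1)]
        rfl
      · have h2 : ¬ ∃ τ', act τ' x = act σ z := by
          rintro ⟨τ', hτ'⟩
          apply h
          refine ⟨σ⁻¹ * τ', ?_⟩
          rw [hact.mul, hτ', ← hact.mul, inv_mul_cancel, hact.one]
        simp only [dif_neg h, dif_neg h2, map_zero]
    · intro σ
      have h1 : ∃ τ', act τ' x = act σ x := ⟨σ, rfl⟩
      simp only [dif_pos h1]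
      exact hwd _ _ (Classical.choose_spec h1)
    · intro z hz
      simp only [dif_neg hz]
  by_cases hy : ∃ τ, act τ x = y
  · obtain ⟨τ, rfl⟩ := hy
    have hτ : τ ∉ U := fun h => hxy ((hUmem τ).1 h).symm
    obtain ⟨L, hL, hLU⟩ := hact.smooth x
    have hle : L.fixingSubgroup ≤ U := fun σ hσ => hLU σ hσ
    have hopen : IsOpen (U : Set GQ) := Subgroup.isOpen_mono hle L.fixingSubgroup_isOpen
    have hcl : IsClosed (U : Set GQ) := U.isClosed_of_isOpen hopen
    have hAC : IsAlgClosure ℚ Qb :=
      (inferInstance : @IsAlgClosure ℚ (AlgebraicClosure ℚ) _ _ (AlgebraicClosure.instAlgebra ℚ) _)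
    have hGal : IsGalois ℚ Qb := inferInstance
    obtain ⟨a, haU, haτ⟩ : ∃ a : Qb, (∀ h ∈ U, h a = a) ∧ τ a ≠ a := by
      by_contra hcon
      push Not at hcon
      apply hτ
      have h1 : τ ∈ (IntermediateField.fixedField U).fixingSubgroup := by
        rw [IntermediateField.mem_fixingSubgroup_iff]
        intro x hx
        rw [IntermediateField.mem_fixedField_iff] at hx
        exact hcon x hx
      rwa [InfiniteGalois.fixingSubgroup_fixedField (⟨U, hcl⟩ : ClosedSubgroup GQ)] at h1
    obtain ⟨f, hf1, hf2, -⟩ := key a haU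
    refine ⟨f, hf1, ?_⟩
    have hx : f x = a := by
      have h1 := hf2 1
      rwa [hact.one] at h1
    rw [hx, hf2 τ]
    exact haτ.symm
  · obtain ⟨f, hf1, hf2, hf3⟩ := key 1 (fun σ _ => map_one σ)
    refine ⟨f, hf1, ?_⟩
    have hx : f x = 1 := by
      have h1 := hf2 1
      rwa [hact.one, map_one] at h1
    rw [hx, hf3 y hy]
    exact one_ne_zero

end Fermat.Agent.S19.A
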