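import Fermat.Agent.S19.A.Defs

/-!
# S19 / A : the ring `ℤ_(ℓ) = GaloisRep.ratLocalizedAt ℓ ⊂ ℚ`   (TASK S19/A-Zl)
-/

set_option autoImplicit false

namespace Fermat.Agent.S19.A

variable (ℓ : ℕ) [Fact ℓ.Prime]

theorem mem_Zl_iff (q : ℚ) : q ∈ Zl ℓ ↔ q.den.Coprime ℓ := Iff.rfl

/-- a fraction with denominator prime to `ℓ` is `ℓ`-integral. -/
theorem div_mem_Zl (a : ℤ) (b : ℕ) (hb : b.Coprime ℓ) : (a : ℚ) / (b : ℚ) ∈ Zl ℓ := by
  rw [mem_Zl_iff]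
  have h1 : ((a : ℚ) / (b : ℚ)) = Rat.divInt a (b : ℤ) := by
    rw [Rat.divInt_eq_div]
    push_cast
    rfl
  have h2 : (((Rat.divInt a (b : ℤ)).den : ℕ) : ℤ) ∣ (b : ℤ) := Rat.den_dvd a b
  rw [h1]
  exact Nat.Coprime.coprime_dvd_left (Int.natCast_dvd_natCast.1 h2) hb

theorem intCast_mem_Zl (a : ℤ) : (a : ℚ) ∈ Zl ℓ := by
  have := div_mem_Zl ℓ a 1 (Nat.coprime_one_left ℓ)
  simpa using this

/-- every rational becomes `ℓ`-integral after multiplication by a power of `ℓ`. -/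
theorem exists_pow_mul_mem_Zl (q : ℚ) : ∃ n : ℕ, (ℓ : ℚ) ^ n * q ∈ Zl ℓ := by
  have hℓ : ℓ.Prime := Fact.out
  obtain ⟨e, m, hm, hden⟩ := Nat.exists_eq_pow_mul_and_not_dvd q.den_nz ℓ hℓ.ne_one
  refine ⟨e, ?_⟩
  have hm0 : (m : ℚ) ≠ 0 := by
    intro h
    have : m = 0 := by exact_mod_cast h
    exact hm (this ▸ dvd_zero ℓ)
  have hℓ0 : (ℓ : ℚ) ≠ 0 := by exact_mod_cast hℓ.ne_zero
  have h1 : (ℓ : ℚ) ^ e * q = (q.num : ℚ) / (m : ℚ) := by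
    conv_lhs => rw [← Rat.num_div_den q, hden]
    push_cast
    field_simp
  rw [h1]
  exact div_mem_Zl ℓ _ _ ((Nat.Prime.coprime_iff_not_dvd hℓ).2 hm).symm

/-- `ℓ` is not a unit. -/
theorem not_isUnit_natCast_Zl : ¬ IsUnit ((ℓ : ℕ) : Zl ℓ) := by
  have hℓ : ℓ.Prime := Fact.out
  intro h
  obtain ⟨b, hb⟩ := h.exists_right_inv
  have h1 : (ℓ : ℚ) * (b : ℚ) = 1 := by
    have := congrArg (Subtype.val) hb
    simpa using this
  have hℓ0 : (ℓ : ℚ) ≠ 0 := by exact_mod_cast hℓ.ne_zero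
  have h2 : (b : ℚ) = ((ℓ : ℕ) : ℚ)⁻¹ := by
    field_simp
    linarith
  have h3 : (b : ℚ).den.Coprime ℓ := b.2
  rw [h2, Rat.inv_natCast_den_of_pos hℓ.pos] at h3
  exact hℓ.one_lt.ne' ((Nat.coprime_self ℓ).1 h3)

/-- an element whose numerator is prime to `ℓ` is a unit. -/
theorem isUnit_Zl_of_not_dvd (a : Zl ℓ) (h : ¬ (ℓ : ℤ) ∣ (a : ℚ).num) : IsUnit a := by
  have hℓ : ℓ.Prime := Fact.out
  have hnum0 : (a : ℚ).num ≠ 0 := by
    intro h0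
    exact h (h0 ▸ dvd_zero _)
  have hcop : (a : ℚ).num.natAbs.Coprime ℓ := by
    refine ((Nat.Prime.coprime_iff_not_dvd hℓ).2 ?_).symm
    intro hd
    exact h (Int.natCast_dvd.2 hd)
  have hmem : (((a : ℚ).num.sign * ((a : ℚ).den : ℤ) : ℤ) : ℚ) / (((a : ℚ).num.natAbs : ℕ) : ℚ) ∈ Zl ℓ :=
    div_mem_Zl ℓ _ _ hcop
  refine IsUnit.of_mul_eq_one ⟨_, hmem⟩ ?_
  apply Subtype.ext
  have hq : ((a : ℚ).num : ℚ) ≠ 0 := by exact_mod_cast hnum0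
  have hd : ((a : ℚ).den : ℚ) ≠ 0 := by exact_mod_cast (a : ℚ).den_nz
  have habs : (((a : ℚ).num.natAbs : ℕ) : ℚ) = ((a : ℚ).num.sign : ℚ) * ((a : ℚ).num : ℚ) := by
    rw [Nat.cast_natAbs, ← Int.sign_mul_self_eq_abs]
    push_cast
    rfl
  have hs : ((a : ℚ).num.sign : ℚ) ≠ 0 := by
    have : (a : ℚ).num.sign ≠ 0 := by simpa [Int.sign_eq_zero_iff_zero] using hnum0
    exact_mod_cast this
  have ha : (a : ℚ) = ((a : ℚ).num : ℚ) / ((a : ℚ).den : ℚ) := (Rat.num_div_den _).symm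
  show (a : ℚ) * ((((a : ℚ).num.sign * ((a : ℚ).den : ℤ) : ℤ) : ℚ) /
    (((a : ℚ).num.natAbs : ℕ) : ℚ)) = 1
  calc (a : ℚ) * ((((a : ℚ).num.sign * ((a : ℚ).den : ℤ) : ℤ) : ℚ) /
        (((a : ℚ).num.natAbs : ℕ) : ℚ))
      = (((a : ℚ).num : ℚ) / ((a : ℚ).den : ℚ)) *
        ((((a : ℚ).num.sign * ((a : ℚ).den : ℤ) : ℤ) : ℚ) /
          (((a : ℚ).num.natAbs : ℕ) : ℚ)) := by rw [← ha]
    _ = 1 := by
      rw [habs]
      push_cast
      field_simp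

/-- an element is a unit or divisible by `ℓ`. -/
theorem isUnit_or_dvd_Zl (a : Zl ℓ) : IsUnit a ∨ ((ℓ : ℕ) : Zl ℓ) ∣ a := by
  have hℓ : ℓ.Prime := Fact.out
  by_cases h : (ℓ : ℤ) ∣ (a : ℚ).num
  · right
    obtain ⟨c, hc⟩ := h
    refine ⟨⟨(c : ℚ) / ((a : ℚ).den : ℚ), div_mem_Zl ℓ c _ a.2⟩, ?_⟩
    apply Subtype.ext
    show (a : ℚ) = (ℓ : ℚ) * ((c : ℚ) / ((a : ℚ).den : ℚ))
    conv_lhs => rw [← Rat.num_div_den (a : ℚ), hc]
    push_cast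
    ring
  · exact Or.inl (isUnit_Zl_of_not_dvd ℓ a h)

/-- `ℚ` is the fraction field. -/
instance isFractionRing_Zl : IsFractionRing (Zl ℓ) ℚ := by
  apply IsFractionRing.of_field
  intro z
  refine ⟨⟨(z.num : ℚ), intCast_mem_Zl ℓ _⟩, ⟨((z.den : ℤ) : ℚ), intCast_mem_Zl ℓ _⟩, ?_⟩
  show z = (z.num : ℚ) / ((z.den : ℤ) : ℚ)
  push_cast
  exact (Rat.num_div_den z).symm

theorem irreducible_natCast_Zl : Irreducible ((ℓ : ℕ) : Zl ℓ) := by
  have hℓ : ℓ.Prime := Fact.out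
  have hℓ0 : ((ℓ : ℕ) : Zl ℓ) ≠ 0 := by
    intro h
    have := congrArg Subtype.val h
    have h2 : (ℓ : ℚ) = 0 := by simpa using this
    exact hℓ.ne_zero (by exact_mod_cast h2)
  refine ⟨not_isUnit_natCast_Zl ℓ, fun a b hab => ?_⟩
  rcases isUnit_or_dvd_Zl ℓ a with ha | ⟨c, hc⟩
  · exact Or.inl ha
  · right
    rw [hc, mul_assoc] at hab
    have h1 : c * b = 1 := by
      have := mul_left_cancel₀ hℓ0 ((mul_one _).trans hab)
      exact this.symm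
    exact IsUnit.of_mul_eq_one c (by rw [mul_comm]; exact h1)

theorem exists_associated_pow_Zl {a : Zl ℓ} (ha : a ≠ 0) :
    ∃ n : ℕ, Associated (((ℓ : ℕ) : Zl ℓ) ^ n) a := by
  have hℓ : ℓ.Prime := Fact.out
  have hnum0 : (a : ℚ).num ≠ 0 := by
    intro h0
    apply ha
    apply Subtype.ext
    exact Rat.num_eq_zero.1 h0
  obtain ⟨e, m, hm, hnum⟩ := Nat.exists_eq_pow_mul_and_not_dvd
    (Int.natAbs_ne_zero.2 hnum0) ℓ hℓ.ne_one
  -- `a = ℓ ^ e * (sign * m / den)`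
  set u : Zl ℓ := ⟨(((a : ℚ).num.sign * (m : ℤ) : ℤ) : ℚ) / ((a : ℚ).den : ℚ),
    div_mem_Zl ℓ _ _ a.2⟩ with hu
  have hau : a = ((ℓ : ℕ) : Zl ℓ) ^ e * u := by
    apply Subtype.ext
    show (a : ℚ) = (ℓ : ℚ) ^ e * ((((a : ℚ).num.sign * (m : ℤ) : ℤ) : ℚ) / ((a : ℚ).den : ℚ))
    have h1 : (a : ℚ).num = (a : ℚ).num.sign * ((ℓ : ℤ) ^ e * (m : ℤ)) := by
      have : (((a : ℚ).num.natAbs : ℕ) : ℤ) = (ℓ : ℤ) ^ e * (m : ℤ) := by exact_mod_cast hnum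
      rw [← this, Int.natCast_natAbs, Int.sign_mul_abs]
    conv_lhs => rw [← Rat.num_div_den (a : ℚ), h1]
    push_cast
    ring
  have hunit : IsUnit u := by
    rcases isUnit_or_dvd_Zl ℓ u with h | ⟨c, hc⟩
    · exact h
    · exfalso
      -- then `ℓ ∣ sign * m` in `ℤ_(ℓ)`, hence in `ℤ`
      have h2 : ((((a : ℚ).num.sign * (m : ℤ) : ℤ) : ℚ)) = (ℓ : ℚ) * ((c : ℚ) * ((a : ℚ).den : ℚ)) := by
        have h3 := congrArg Subtype.val hc
        have h4 : (((a : ℚ).num.sign * (m : ℤ) : ℤ) : ℚ) / ((a : ℚ).den : ℚ) = (ℓ : ℚ) * (c : ℚ) := by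
          simpa [hu] using h3
        have hd : ((a : ℚ).den : ℚ) ≠ 0 := by exact_mod_cast (a : ℚ).den_nz
        field_simp at h4
        linarith
      -- write `c * den = x / y` with `y` prime to `ℓ`
      set w : ℚ := (c : ℚ) * ((a : ℚ).den : ℚ) with hw
      have hwmem : w ∈ Zl ℓ := (Zl ℓ).mul_mem c.2 (by
        have := intCast_mem_Zl ℓ ((a : ℚ).den : ℤ)
        simpa using this)
      have hwd : (w.den : ℚ) ≠ 0 := by exact_mod_cast w.den_nz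
      have h5 : ((a : ℚ).num.sign * (m : ℤ)) * (w.den : ℤ) = (ℓ : ℤ) * w.num := by
        have : ((((a : ℚ).num.sign * (m : ℤ)) * (w.den : ℤ) : ℤ) : ℚ) = (((ℓ : ℤ) * w.num : ℤ) : ℚ) := by
          push_cast
          push_cast at h2
          rw [h2, mul_assoc, Rat.mul_den_eq_num]
        exact_mod_cast this
      have hpr : Prime (ℓ : ℤ) := Nat.prime_iff_prime_int.1 hℓ
      have h6 : (ℓ : ℤ) ∣ ((a : ℚ).num.sign * (m : ℤ)) * (w.den : ℤ) := ⟨_, h5⟩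
      rcases hpr.dvd_or_dvd h6 with h7 | h7
      · rcases hpr.dvd_or_dvd h7 with h8 | h8
        · have h9 : IsUnit (a : ℚ).num.sign := by
            rcases lt_or_gt_of_ne hnum0 with hlt | hgt
            · rw [Int.sign_eq_neg_one_of_neg hlt]; exact isUnit_one.neg
            · rw [Int.sign_eq_one_of_pos hgt]; exact isUnit_one
          exact hpr.not_isUnit (isUnit_of_dvd_unit h8 h9)
        · exact hm (Int.natCast_dvd_natCast.1 h8)
      · have h10 : ℓ ∣ w.den := Int.natCast_dvd_natCast.1 h7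
        have h11 : w.den.Coprime ℓ := hwmem
        exact hℓ.one_lt.ne' (Nat.eq_one_of_dvd_coprimes h11.symm (dvd_refl ℓ) h10 |> fun h => h)
  obtain ⟨v, hv⟩ := hunit
  exact ⟨e, v, by rw [hv, ← hau]⟩

instance isDiscreteValuationRing_Zl : IsDiscreteValuationRing (Zl ℓ) :=
  IsDiscreteValuationRing.ofHasUnitMulPowIrreducibleFactorization
    ⟨((ℓ : ℕ) : Zl ℓ), irreducible_natCast_Zl ℓ, fun hx => exists_associated_pow_Zl ℓ hx⟩

/-- `ℤ_(ℓ)` is a principal ideal ring (every nonzero element is `ℓ ^ n * unit`;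
`IsDiscreteValuationRing.ofHasUnitMulPowIrreducibleFactorization` or directly). -/
instance isPrincipalIdealRing_Zl : IsPrincipalIdealRing (Zl ℓ) := by
  infer_instance

/-- `ℤ_(ℓ)` is integrally closed in `ℚ`. -/
theorem mem_Zl_of_isIntegral {q : ℚ} (hq : IsIntegral (Zl ℓ) q) : q ∈ Zl ℓ := by
  obtain ⟨y, hy⟩ := (IsIntegrallyClosed.isIntegral_iff (R := Zl ℓ) (K := ℚ)).1 hq
  rw [← hy]
  exact y.2

/-- the same inside `Qbar`. -/
theorem exists_Zl_of_isIntegral {q : ℚ} (hq : IsIntegral (Zl ℓ) (algebraMap ℚ Qb q)) :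
    q ∈ Zl ℓ := by
  apply mem_Zl_of_isIntegral
  exact (isIntegral_algebraMap_iff (algebraMap ℚ Qb).injective).1 hq

/-- the structure map `ℤ_(ℓ) → Qbar` is the composite through `ℚ`. -/
theorem algebraMap_Zl_Qb (r : Zl ℓ) : algebraMap (Zl ℓ) Qb r = algebraMap ℚ Qb (r : ℚ) := by
  rfl

theorem algebraMap_Zl_Qb_injective : Function.Injective (algebraMap (Zl ℓ) Qb) := by
  intro a b h
  rw [algebraMap_Zl_Qb, algebraMap_Zl_Qb] at h
  exact Subtype.ext ((algebraMap ℚ Qb).injective h)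

/-- the invariants of `GQ` in `Qbar` are the rationals. -/
theorem exists_rat_of_fixed {c : Qb} (hc : ∀ σ : GQ, σ c = c) : ∃ q : ℚ, algebraMap ℚ Qb q = c := by
  have hac : IsAlgClosure ℚ Qb :=
    (inferInstance : @IsAlgClosure ℚ (AlgebraicClosure ℚ) _ _ (AlgebraicClosure.instAlgebra ℚ) _)
  have hgal : IsGalois ℚ Qb := inferInstance
  exact (InfiniteGalois.mem_range_algebraMap_iff_fixed (k := ℚ) (K := Qb) c).2 hc

/-- hypothesis `hfix` of `linearIndependent_of_equivariant` for `R = ℤ_(ℓ)`, `T = GQ`. -/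
theorem exists_fraction_of_fixed {c : Qb} (hc : ∀ σ : GQ, σ c = c) :
    ∃ d r : Zl ℓ, algebraMap (Zl ℓ) Qb d ≠ 0 ∧
      algebraMap (Zl ℓ) Qb d * c = algebraMap (Zl ℓ) Qb r := by
  obtain ⟨q, rfl⟩ := exists_rat_of_fixed hc
  refine ⟨⟨((q.den : ℤ) : ℚ), intCast_mem_Zl ℓ _⟩, ⟨(q.num : ℚ), intCast_mem_Zl ℓ _⟩, ?_, ?_⟩
  · rw [algebraMap_Zl_Qb]
    have : (((q.den : ℤ) : ℚ)) ≠ 0 := by exact_mod_cast q.den_nz
    exact (map_ne_zero _).2 this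
  · rw [algebraMap_Zl_Qb, algebraMap_Zl_Qb, ← map_mul]
    congr 1
    show ((q.den : ℤ) : ℚ) * q = (q.num : ℚ)
    push_cast
    exact Rat.den_mul_eq_num q

end Fermat.Agent.S19.A
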