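import Fermat.Agent.S19.A.OfModel
import Fermat.Agent.S19.A.Basis
import Fermat.Agent.S19.A.Zl

/-!
# S19 / A : `FlatOrder ⇒ HasFlatModel`
-/

set_option autoImplicit false

namespace Fermat.Agent.S19.A

variable {ℓ : ℕ} [Fact ℓ.Prime] {G : Type} [AddCommGroup G] {act : GQ → G → G}
  {H : Subalgebra (Zl ℓ) (G → Qb)}

theorem IsGalAction.surjective (hact : IsGalAction act) (σ : GQ) :
    Function.Surjective (act σ) := fun x =>
  ⟨act σ⁻¹ x, by rw [← hact.mul, mul_inv_cancel, hact.one]⟩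

theorem IsGalAction.zero (hact : IsGalAction act) (σ : GQ) : act σ 0 = 0 := by
  have := hact.add σ 0 0
  rw [add_zero] at this
  exact left_eq_add.mp this

theorem FlatOrder.exists_basis [Finite G] (hact : IsGalAction act) (h : FlatOrder ℓ act H) :
    ∃ (ι : Type) (_ : Fintype ι) (b : Module.Basis ι (Zl ℓ) H),
      LinearIndependent Qb (fun i => (b i : G → Qb)) ∧
        Submodule.span Qb (Set.range fun i => (b i : G → Qb)) = ⊤ :=
  exists_basis_of_order (algebraMap_Zl_Qb_injective ℓ) (fun σ : GQ => (σ : Qb →+* Qb)) act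
    hact.surjective (fun _ hc => exists_fraction_of_fixed ℓ hc) H h.fg
    (fun f hf σ x => h.equiv f hf σ x) h.sep

/-- TASK S19/A-Counit. `f 0` is `GQ`-invariant (`act σ 0 = 0`), hence rational
(`exists_rat_of_fixed`), and integral over `ℤ_(ℓ)` (`f` is integral because `H` is a finite module:
`IsIntegral.of_mem_of_fg`; apply the algebra hom `Pi.evalAlgHom _ _ 0`), hence in `ℤ_(ℓ)`
(`exists_Zl_of_isIntegral`). -/
theorem FlatOrder.counit (hact : IsGalAction act) (h : FlatOrder ℓ act H) :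
    ∀ f ∈ H, ∃ r : Zl ℓ, algebraMap (Zl ℓ) Qb r = f 0 := by
  intro φ hφ
  obtain ⟨q, hq⟩ := exists_rat_of_fixed (c := φ 0) (fun σ => by
    rw [← h.equiv φ hφ σ 0, hact.zero])
  have h1 : IsIntegral (Zl ℓ) φ := IsIntegral.of_mem_of_fg H h.fg φ hφ
  have h2 : IsIntegral (Zl ℓ) (φ 0) := h1.map (Pi.evalAlgHom (Zl ℓ) (fun _ : G => Qb) 0)
  rw [← hq] at h2
  exact ⟨⟨q, exists_Zl_of_isIntegral ℓ h2⟩, by rw [algebraMap_Zl_Qb, hq]⟩

omit [Fact ℓ.Prime] in
/-- TASK S19/A-Anti (a). `x ↦ f (k • x)` is in `H` for `k ≥ 1`: induction on `k` for all `f`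
simultaneously, `f (k • x + x) = ∑ a_i (k • x) * b_i x`. -/
theorem FlatOrder.nsmul_mem (h : FlatOrder ℓ act H) (k : ℕ) :
    ∀ f ∈ H, (fun x => f ((k + 1) • x)) ∈ H := by
  induction k with
  | zero =>
    intro f hf
    simpa using hf
  | succ k ih =>
    intro f hf
    obtain ⟨ι, _, a, b, ha, hb, hab⟩ := h.comul f hf
    have h1 : (fun x => f ((k + 1 + 1) • x)) = ∑ i, (fun x => a i ((k + 1) • x)) * b i := by
      funext x
      rw [succ_nsmul, hab, Finset.sum_apply]
      rfl
    rw [h1]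
    exact sum_mem fun i _ => mul_mem (ih _ (ha i)) (hb i)

omit [Fact ℓ.Prime] in
/-- TASK S19/A-Anti (b). `-x = (2 * card G - 1) • x`. -/
theorem FlatOrder.anti [Finite G] (h : FlatOrder ℓ act H) :
    ∀ f ∈ H, (fun x => f (-x)) ∈ H := by
  intro f hf
  have hpos : 0 < Nat.card G := Nat.card_pos
  have h1 := h.nsmul_mem (2 * Nat.card G - 2) f hf
  have h2 : (fun x => f ((2 * Nat.card G - 2 + 1) • x)) = fun x => f (-x) := by
    funext x
    congr 1
    rw [eq_neg_iff_add_eq_zero, ← succ_nsmul,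
      show 2 * Nat.card G - 2 + 1 + 1 = 2 * Nat.card G by omega, mul_nsmul, card_nsmul_eq_zero']
  rwa [h2] at h1

theorem FlatOrder.modelHyp [Finite G] (hact : IsGalAction act) (h : FlatOrder ℓ act H) :
    ModelHyp H where
  inj0 := algebraMap_Zl_Qb_injective ℓ
  basis := h.exists_basis hact
  comul := h.comul
  counit := h.counit hact
  anti := h.anti

/-- **A1**: an order of equivariant functions closed under comultiplication gives a finite flat
model. -/
theorem FlatOrder.hasFlatModel [Finite G] (hact : IsGalAction act) (h : FlatOrder ℓ act H) :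
    HasFlatModel ℓ G act :=
  hasFlatModel_of_modelHyp (h.modelHyp hact) h.equiv

end Fermat.Agent.S19.A
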