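import Fermat.Agent.S19.A.Inst
import Fermat.Agent.S19.Loc.Final

/-!
# S19 / A / Final : `Loc.Coord` for the inertia group of `A` gives a finite flat model

Glue of `Loc.hasFlatModel_of_coord` (helper27) with the concrete base `(A, I_A, φ, A ∩ Qbar^{I_A})`.
-/

set_option autoImplicit false

namespace Fermat.Agent.S19.A

open Fermat.Agent.S19.RL Fermat.Agent.S19.Loc

variable {ℓ : ℕ} [Fact ℓ.Prime] {A : ValuationSubring Qb} {φ : GQ}

theorem fixR_eq_Rp : fixR A (βI (A.inertiaSubgroupIn ℚ)) = Rp A := by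
  ext c
  rw [mem_fixR_βI, mem_Rp]

theorem unramBase' (hA : A.LiesOverPrime ℓ) (hφ : A.IsFrobeniusAt φ ℓ) :
    UnramBase ℓ (A.inertiaSubgroupIn ℚ) φ (fixR A (βI (A.inertiaSubgroupIn ℚ))) := by
  rw [fixR_eq_Rp]
  exact unramBase hA hφ

/-- TASK S19/A4-BaseI. `stable`: the inertia group is contained in the decomposition group;
`unif_mem`, `unif_nonunit`, `unif_ne`: `ℓ` is rational, `hA`; `dvd_pow`: a nonzero `d ∈ R'` is
`ℓ ^ c * unit` (`S36.Base.exists_unit_mul_pow` / `exists_zpow_mul_mem`, or `unramBase'`: PID +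
`unit_or_dvd`).
`nilp` (rank one): let `a ∈ m_A`.  `a` is algebraic over `ℚ`, so `∑ c_i a^i = 0` with integers `c_i`,
not all divisible by `ℓ` (primitive part of the minimal polynomial).  Let `i₀` be the smallest index
with `ℓ ∤ c_{i₀}`.  Then `a^{i₀} * (c_{i₀} + a * (∑_{i > i₀} c_i a^{i - i₀ - 1})) =
- ℓ * ∑_{i < i₀} (c_i / ℓ) a^i`, and the bracket is a unit of `A` (`c_{i₀}` is a unit of `A`, `a ∈ m_A`).
So `a^{i₀} = ℓ * b` with `b ∈ A`.  (If helper8's `Geo0/Inst.lean` has landed a proof of the field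
`nilp` of `RatStr`, reuse it.) -/
theorem baseI (hA : A.LiesOverPrime ℓ) :
    Base A (βI (A.inertiaSubgroupIn ℚ)) (ℓ : Qb) := by
  have hℓ : ℓ.Prime := Fact.out
  have hℓ0 : (ℓ : Qb) ≠ 0 := by exact_mod_cast hℓ.ne_zero
  have hℓA : (ℓ : Qb) ∈ A := by
    have h : (ℓ : Qb) ∈ A.nonunits := hA
    exact (ValuationSubring.mem_nonunits_iff_exists_mem_maximalIdeal.mp h).1
  refine ⟨?_, ?_, hA, hℓ0, ?_, ?_⟩
  · -- stable
    rintro ⟨σ, hσ⟩ a ha
    obtain ⟨τ, -, rfl⟩ := Subgroup.mem_map.mp hσ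
    open scoped Pointwise in
    have h1 : (τ : GQ) • A = A := τ.2
    open scoped Pointwise in
    have h2 : (τ : GQ) • a ∈ (τ : GQ) • A := ValuationSubring.smul_mem_pointwise_smul _ a A ha
    rw [h1] at h2
    exact h2
  · -- unif_mem
    rw [mem_fixR_βI]
    exact ⟨hℓA, fun σ _ => map_natCast σ ℓ⟩
  · -- dvd_pow
    intro d hd hd0
    rw [mem_fixR_βI] at hd
    have hdL : d ∈ Fermat.Agent.S36.Base.L0 A := Fermat.Agent.S36.Base.mem_L0_iff.mpr hd.2
    let x : Fermat.Agent.S36.Base.A0 A := ⟨⟨d, hdL⟩, hd.1⟩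
    have hx : x ≠ 0 := by
      intro h
      apply hd0
      exact congrArg (fun z : Fermat.Agent.S36.Base.A0 A =>
        ((z : Fermat.Agent.S36.Base.L0 A) : Qb)) h
    obtain ⟨n, u, hu⟩ := Fermat.Agent.S36.Base.exists_unit_mul_pow hℓ hA x hx
    refine ⟨n, (((u⁻¹ : (Fermat.Agent.S36.Base.A0 A)ˣ) : Fermat.Agent.S36.Base.A0 A) :
      Fermat.Agent.S36.Base.L0 A), ?_, ?_⟩
    · rw [mem_fixR_βI]
      exact ⟨((u⁻¹ : (Fermat.Agent.S36.Base.A0 A)ˣ) : Fermat.Agent.S36.Base.A0 A).2,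
        Fermat.Agent.S36.Base.mem_L0_iff.mp
          (((u⁻¹ : (Fermat.Agent.S36.Base.A0 A)ˣ) : Fermat.Agent.S36.Base.A0 A) :
            Fermat.Agent.S36.Base.L0 A).2⟩
    · have h1 : x * ((u⁻¹ : (Fermat.Agent.S36.Base.A0 A)ˣ) : Fermat.Agent.S36.Base.A0 A)
          = ((ℓ : ℕ) : Fermat.Agent.S36.Base.A0 A) ^ n := by
        rw [hu, mul_comm (u : Fermat.Agent.S36.Base.A0 A), mul_assoc, Units.mul_inv, mul_one]
      have h2 := congrArg (fun z : Fermat.Agent.S36.Base.A0 A =>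
        ((z : Fermat.Agent.S36.Base.L0 A) : Qb)) h1
      simpa using h2
  · -- nilp
    intro a ha
    by_cases ha0 : a = 0
    · exact ⟨1, 0, A.zero_mem, by rw [ha0]; simp⟩
    have hv : A.valuation a < 1 := ha
    have hinv : a⁻¹ ∉ A := by
      intro h
      have h1 : A.valuation a⁻¹ ≤ 1 := (A.valuation_le_one_iff _).mpr h
      rw [map_inv₀] at h1
      have h2 : A.valuation a ≠ 0 := (Valuation.ne_zero_iff _).mpr ha0
      have h3 : (1 : A.ValueGroup) ≤ A.valuation a := by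
        rwa [inv_le_one₀ (zero_lt_iff.mpr h2)] at h1
      exact absurd hv (not_lt.mpr h3)
    obtain ⟨g, rfl⟩ := Fermat.Agent.S55.Places.exists_smul_padicPlace_eq ℓ A hA
    rw [Fermat.Agent.S55.Places.mem_smul_padicPlace_iff, map_inv₀,
      Fermat.Agent.S55.Places.nrm_inv, not_le] at hinv
    have hpos : 0 < Fermat.Agent.S55.Places.nrm ℓ (g⁻¹ a) := by
      rw [Fermat.Agent.S55.Places.nrm_pos_iff]
      exact fun h => ha0 ((map_eq_zero_iff _ (g⁻¹ : GQ).injective).mp h)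
    have hlt : Fermat.Agent.S55.Places.nrm ℓ (g⁻¹ a) < 1 := by
      rwa [one_lt_inv₀ hpos] at hinv
    have hℓR : (0 : ℝ) < (ℓ : ℝ)⁻¹ := by
      have : (0 : ℝ) < ℓ := by exact_mod_cast hℓ.pos
      positivity
    obtain ⟨N, hN⟩ := exists_pow_lt_of_lt_one hℓR hlt
    refine ⟨N, a ^ N / (ℓ : Qb), ?_, by field_simp⟩
    rw [Fermat.Agent.S55.Places.mem_smul_padicPlace_iff, map_div₀, map_pow, map_natCast,
      Fermat.Agent.S55.Places.nrm_div, Fermat.Agent.S55.Places.nrm_pow,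
      Fermat.Agent.S55.Places.nrm_natCast_self, div_le_one hℓR]
    exact hN.le

/-- **S19, abstract form over the inertia group of `A`.** -/
theorem hasFlatModel_of_coord_inertia {G : Type} [AddCommGroup G] [Finite G] {act : GQ → G → G}
    (hact : IsGalAction act) (hA : A.LiesOverPrime ℓ)
    {J : Type} [AddCommGroup J] [DistribMulAction (A.inertiaSubgroupIn ℚ) J] {J1 : AddSubgroup J}
    {ι : Type} [Finite ι] {z : J → ι → Qb} (hz : Coord A (βI (A.inertiaSubgroupIn ℚ)) J1 z)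
    (j : G →+ J) (hj : Function.Injective j)
    (hjσ : ∀ (σ : A.inertiaSubgroupIn ℚ) x, j (act σ x) = σ • j x) : HasFlatModel ℓ G act := by
  obtain ⟨φ, hφ⟩ := Fermat.Agent.S54.exists_isFrobeniusAt ℓ (Fact.out) A hA
  have hI := intBase (ℓ := ℓ) hφ
  exact hasFlatModel_of_coord hact (unramBase' hA hφ) (baseI hA) (fun a ha => hI.frob_mem a ha)
    hI.normal hz j hj hjσ

end Fermat.Agent.S19.A
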