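import Mathlib

/-!
# S19 / A : a Hopf algebra structure from an injective realisation by functions on a group

`H` a commutative `R`-algebra, `ev : H →ₐ[R] (G → Ω)` (`G` an additive commutative group).
If `ev`, `ev2 : H ⊗ H → (G × G → Ω)`, `ev3 : H ⊗ (H ⊗ H) → (G × G × G → Ω)` and `R → Ω` are
injective and we are given algebra maps `Δ, ε, S` realising `f (x + y)`, `f 0`, `f (-x)`, then
`H` is a cocommutative Hopf algebra.
-/

set_option autoImplicit false

open scoped TensorProduct

namespace Fermat.Agent.S19.A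

noncomputable section

variable {R H Ω G : Type*} [CommRing R] [CommRing H] [Algebra R H] [CommRing Ω] [Algebra R Ω]

/-- pull back of functions along a map, as an algebra hom. -/
def pull (R Ω : Type*) [CommRing R] [CommRing Ω] [Algebra R Ω] {X Y : Type*} (p : Y → X) :
    (X → Ω) →ₐ[R] (Y → Ω) :=
  AlgHom.pi (fun y => Pi.evalAlgHom R (fun _ => Ω) (p y))

@[simp] theorem pull_apply {X Y : Type*} (p : Y → X) (f : X → Ω) (y : Y) :
    pull R Ω p f y = f (p y) := rfl

/-- external product of two realisations. -/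
def box {H₁ H₂ X Y : Type*} [CommRing H₁] [Algebra R H₁] [CommRing H₂] [Algebra R H₂]
    (e₁ : H₁ →ₐ[R] (X → Ω)) (e₂ : H₂ →ₐ[R] (Y → Ω)) : H₁ ⊗[R] H₂ →ₐ[R] (X × Y → Ω) :=
  Algebra.TensorProduct.productMap ((pull R Ω Prod.fst).comp e₁) ((pull R Ω Prod.snd).comp e₂)

@[simp] theorem box_tmul {H₁ H₂ X Y : Type*} [CommRing H₁] [Algebra R H₁] [CommRing H₂]
    [Algebra R H₂] (e₁ : H₁ →ₐ[R] (X → Ω)) (e₂ : H₂ →ₐ[R] (Y → Ω)) (a : H₁) (b : H₂) (z : X × Y) :
    box e₁ e₂ (a ⊗ₜ[R] b) z = e₁ a z.1 * e₂ b z.2 := by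
  simp [box]

/-- `H ⊗ H → (G × G → Ω)`. -/
abbrev ev2 (ev : H →ₐ[R] (G → Ω)) : H ⊗[R] H →ₐ[R] (G × G → Ω) := box ev ev

/-- `H ⊗ (H ⊗ H) → (G × G × G → Ω)`. -/
abbrev ev3 (ev : H →ₐ[R] (G → Ω)) : H ⊗[R] (H ⊗[R] H) →ₐ[R] (G × G × G → Ω) := box ev (ev2 ev)

variable [AddCommGroup G]

/-- the data needed to turn `H` into a Hopf algebra. -/
structure HopfData (ev : H →ₐ[R] (G → Ω)) where
  inj0 : Function.Injective (algebraMap R Ω)
  inj1 : Function.Injective ev
  inj2 : Function.Injective (ev2 ev)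
  inj3 : Function.Injective (ev3 ev)
  Δ : H →ₐ[R] H ⊗[R] H
  ε : H →ₐ[R] R
  S : H →ₐ[R] H
  hΔ : ∀ f x y, ev2 ev (Δ f) (x, y) = ev f (x + y)
  hε : ∀ f, algebraMap R Ω (ε f) = ev f 0
  hS : ∀ f x, ev (S f) x = ev f (-x)

namespace HopfData

variable {ev : H →ₐ[R] (G → Ω)} (D : HopfData ev)

theorem ev3_assoc_map (t : H ⊗[R] H) (x y z : G) :
    ev3 ev ((Algebra.TensorProduct.assoc R R R H H H)
      (Algebra.TensorProduct.map D.Δ (AlgHom.id R H) t)) (x, y, z) = ev2 ev t (x + y, z) := by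
  have key : ∀ (s : H ⊗[R] H) (b : H), ev3 ev ((Algebra.TensorProduct.assoc R R R H H H)
      (s ⊗ₜ[R] b)) (x, y, z) = ev2 ev s (x, y) * ev b z := by
    intro s b
    induction s using TensorProduct.induction_on with
    | zero => simp
    | tmul a c => simp [mul_assoc]
    | add s₁ s₂ h₁ h₂ => simp only [TensorProduct.add_tmul, map_add, Pi.add_apply, h₁, h₂, add_mul]
  induction t using TensorProduct.induction_on with
  | zero => simp
  | tmul a b => simp [key, D.hΔ]
  | add s₁ s₂ h₁ h₂ => simp only [map_add, Pi.add_apply, h₁, h₂]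

theorem ev3_map (t : H ⊗[R] H) (x y z : G) :
    ev3 ev (Algebra.TensorProduct.map (AlgHom.id R H) D.Δ t) (x, y, z) = ev2 ev t (x, y + z) := by
  induction t using TensorProduct.induction_on with
  | zero => simp
  | tmul a b => simp [D.hΔ]
  | add s₁ s₂ h₁ h₂ => simp only [map_add, Pi.add_apply, h₁, h₂]

theorem coassoc : (Algebra.TensorProduct.assoc R R R H H H).toAlgHom.comp
      ((Algebra.TensorProduct.map D.Δ (.id R H)).comp D.Δ)
      = (Algebra.TensorProduct.map (.id R H) D.Δ).comp D.Δ := by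
  ext f
  apply D.inj3
  funext ⟨x, y, z⟩
  have h1 := D.ev3_assoc_map (D.Δ f) x y z
  have h2 := D.ev3_map (D.Δ f) x y z
  simp only [AlgHom.comp_apply]
  erw [h1]
  rw [h2, D.hΔ, D.hΔ, add_assoc]

theorem ev_lid_map (t : H ⊗[R] H) (x : G) :
    ev (Algebra.TensorProduct.lid R H (Algebra.TensorProduct.map D.ε (AlgHom.id R H) t)) x
      = ev2 ev t (0, x) := by
  induction t using TensorProduct.induction_on with
  | zero => simp
  | tmul a b => simp [Algebra.smul_def, D.hε]
  | add s₁ s₂ h₁ h₂ => simp only [map_add, Pi.add_apply, h₁, h₂]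

theorem ev_rid_map (t : H ⊗[R] H) (x : G) :
    ev (Algebra.TensorProduct.rid R R H (Algebra.TensorProduct.map (AlgHom.id R H) D.ε t)) x
      = ev2 ev t (x, 0) := by
  induction t using TensorProduct.induction_on with
  | zero => simp
  | tmul a b => simp [Algebra.smul_def, D.hε, mul_comm]
  | add s₁ s₂ h₁ h₂ => simp only [map_add, Pi.add_apply, h₁, h₂]

theorem rTensor_counit : (Algebra.TensorProduct.map D.ε (.id R H)).comp D.Δ
      = (Algebra.TensorProduct.lid R H).symm := by
  ext f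
  apply (Algebra.TensorProduct.lid R H).injective
  apply D.inj1
  funext x
  have h1 := D.ev_lid_map (D.Δ f) x
  simp only [AlgHom.comp_apply]
  rw [h1, D.hΔ, zero_add]
  simp

theorem lTensor_counit : (Algebra.TensorProduct.map (.id R H) D.ε).comp D.Δ
      = (Algebra.TensorProduct.rid R R H).symm := by
  ext f
  apply (Algebra.TensorProduct.rid R R H).injective
  apply D.inj1
  funext x
  have h1 := D.ev_rid_map (D.Δ f) x
  simp only [AlgHom.comp_apply]
  rw [h1, D.hΔ, add_zero]
  simp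

/-- the bialgebra structure. -/
abbrev bialgebra : Bialgebra R H :=
  Bialgebra.ofAlgHom D.Δ D.ε D.coassoc D.rTensor_counit D.lTensor_counit

theorem ev_mul_rTensor (t : H ⊗[R] H) (x : G) :
    ev (LinearMap.mul' R H (D.S.toLinearMap.rTensor H t)) x = ev2 ev t (-x, x) := by
  induction t using TensorProduct.induction_on with
  | zero => simp
  | tmul a b => simp [D.hS]
  | add s₁ s₂ h₁ h₂ => simp only [map_add, Pi.add_apply, h₁, h₂]

theorem ev_mul_lTensor (t : H ⊗[R] H) (x : G) :
    ev (LinearMap.mul' R H (D.S.toLinearMap.lTensor H t)) x = ev2 ev t (x, -x) := by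
  induction t using TensorProduct.induction_on with
  | zero => simp
  | tmul a b => simp [D.hS]
  | add s₁ s₂ h₁ h₂ => simp only [map_add, Pi.add_apply, h₁, h₂]

/-- the Hopf algebra structure. -/
abbrev hopf : HopfAlgebra R H :=
  { D.bialgebra with
    antipode := D.S.toLinearMap
    mul_antipode_rTensor_comul := by
      ext f
      apply D.inj1
      funext x
      have h1 := D.ev_mul_rTensor (D.Δ f) x
      rw [D.hΔ, neg_add_cancel, ← D.hε] at h1
      simp only [LinearMap.comp_apply]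
      refine h1.trans ?_
      simp
      rfl
    mul_antipode_lTensor_comul := by
      ext f
      apply D.inj1
      funext x
      have h1 := D.ev_mul_lTensor (D.Δ f) x
      rw [D.hΔ, add_neg_cancel, ← D.hε] at h1
      simp only [LinearMap.comp_apply]
      refine h1.trans ?_
      simp
      rfl }

omit [AddCommGroup G] in
theorem _root_.Fermat.Agent.S19.A.ev2_comm (ev : H →ₐ[R] (G → Ω)) (t : H ⊗[R] H) (x y : G) :
    ev2 ev (TensorProduct.comm R H H t) (x, y) = ev2 ev t (y, x) := by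
  induction t using TensorProduct.induction_on with
  | zero => simp
  | tmul a b => simp [mul_comm]
  | add s₁ s₂ h₁ h₂ => simp only [map_add, Pi.add_apply, h₁, h₂]

theorem isCocomm : @Coalgebra.IsCocomm R H _ _ _ D.hopf.toCoalgebra := by
  let _ := D.hopf
  refine ⟨?_⟩
  ext f
  apply D.inj2
  funext ⟨x, y⟩
  have h1 := ev2_comm ev (D.Δ f) x y
  rw [D.hΔ, add_comm, ← D.hΔ] at h1
  exact h1

theorem comul_eq (f : H) : @Coalgebra.comul R H _ _ _ D.hopf.toCoalgebraStruct f = D.Δ f := rfl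

end HopfData

end

end Fermat.Agent.S19.A
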