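import Fermat.Agent.S19.A.Gen.Defs
import Fermat.Agent.S36.Base.Residue
import Fermat.Agent.S36.Base.Dvr
import Fermat.Agent.S54.Frobenius

/-!
# S19 / A : the concrete unramified base `R' = A ∩ Qbar^{I_A}` and the final form of Part A
-/

set_option autoImplicit false

namespace Fermat.Agent.S19.A

open Fermat.Agent.S36.Base

/-- `R' = A ∩ Qbar^{I_A}` as a subring of `Qbar`. -/
noncomputable def Rp (A : ValuationSubring Qb) : Subring Qb := A.toSubring ⊓ (L0 A).toSubring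

theorem mem_Rp {A : ValuationSubring Qb} {c : Qb} :
    c ∈ Rp A ↔ c ∈ A ∧ ∀ σ ∈ A.inertiaSubgroupIn ℚ, σ c = c := by
  unfold Rp
  rw [Subring.mem_inf]
  exact and_congr Iff.rfl mem_L0_iff

variable {ℓ : ℕ} [Fact ℓ.Prime] {A : ValuationSubring Qb} {φ : GQ}

/-- TASK S19/A4-Int. (`le`, `mem_of_fixed`, `fixes`: `mem_Rp`; `frob_mem`: `φ` lies in the
decomposition group; `normal`: the inertia group is normal in the decomposition group: it is the
kernel of the action on the residue field, `ValuationSubring.inertiaSubgroup` is a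
`MonoidHom.ker`.) -/
theorem intBase (hφ : A.IsFrobeniusAt φ ℓ) :
    IntBase (A.inertiaSubgroupIn ℚ) φ (Rp A) A.toSubring := by
  have hdec : φ ∈ A.decompositionSubgroup ℚ := hφ.mem_decompositionSubgroup
  refine ⟨fun c hc => (mem_Rp.1 hc).1, fun c hc h => mem_Rp.2 ⟨hc, h⟩, fun c hc => ?_,
    fun a ha σ hσ => (mem_Rp.1 ha).2 σ hσ, fun σ hσ => ?_⟩
  · open scoped Pointwise in
    have h1 : φ • A = A := hdec
    open scoped Pointwise in
    have h2 : φ • c ∈ φ • A := ValuationSubring.smul_mem_pointwise_smul φ c A hc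
    rw [h1] at h2
    exact h2
  · obtain ⟨τ, hτ, rfl⟩ := Subgroup.mem_map.mp hσ
    have hn : (A.inertiaSubgroup ℚ).Normal := by
      unfold ValuationSubring.inertiaSubgroup
      exact MonoidHom.normal_ker _
    have h3 := hn.conj_mem τ hτ (⟨φ, hdec⟩ : A.decompositionSubgroup ℚ)⁻¹
    rw [inv_inv] at h3
    exact Subgroup.mem_map.mpr ⟨_, h3, rfl⟩


/-- `A0 A → Rp A`. -/
noncomputable def Unram_toRp (A : ValuationSubring Qb) : A0 A →+* Rp A where
  toFun x := ⟨((x : L0 A) : Qb), Subring.mem_inf.mpr ⟨x.2, (x : L0 A).2⟩⟩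
  map_one' := rfl
  map_mul' _ _ := rfl
  map_zero' := rfl
  map_add' _ _ := rfl

theorem Unram_toRp_surjective (A : ValuationSubring Qb) : Function.Surjective (Unram_toRp A) := by
  rintro ⟨c, hc⟩
  obtain ⟨h1, h2⟩ := Subring.mem_inf.mp hc
  exact ⟨⟨⟨c, h2⟩, h1⟩, rfl⟩

theorem Unram_toRp_injective (A : ValuationSubring Qb) : Function.Injective (Unram_toRp A) := by
  intro x y h
  have := congrArg (fun z : Rp A => (z : Qb)) h
  exact Subtype.ext (Subtype.ext this)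

theorem Unram_toRp_natCast (A : ValuationSubring Qb) (n : ℕ) : Unram_toRp A (n : A0 A) = (n : Rp A) :=
  map_natCast _ n

theorem Unram_unit_or_dvd (hA : A.LiesOverPrime ℓ) (a : Rp A) : IsUnit a ∨ (ℓ : Rp A) ∣ a := by
  have hq : ℓ.Prime := Fact.out
  have := isDiscreteValuationRing_A0 hq hA
  obtain ⟨x, rfl⟩ := Unram_toRp_surjective A a
  by_cases hx : IsUnit x
  · exact Or.inl (hx.map _)
  · right
    have h1 : x ∈ IsLocalRing.maximalIdeal (A0 A) := (IsLocalRing.mem_maximalIdeal x).mpr hx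
    rw [(IsDiscreteValuationRing.irreducible_iff_uniformizer _).1 (irreducible_natCast hq hA),
      Ideal.mem_span_singleton] at h1
    have := map_dvd (Unram_toRp A) h1
    rwa [Unram_toRp_natCast] at this

omit [Fact ℓ.Prime] in
theorem Unram_not_unit (hA : A.LiesOverPrime ℓ) : ¬ IsUnit (ℓ : Rp A) := by
  intro h
  obtain ⟨b, hb⟩ := h.exists_right_inv
  have h1 : (ℓ : Qb) * (b : Qb) = 1 := by
    have := congrArg (fun z : Rp A => (z : Qb)) hb
    simpa using this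
  have hbA : (b : Qb) ∈ A := (mem_Rp.mp b.2).1
  have hl : (ℓ : Qb) ∈ A.nonunits := hA
  rw [ValuationSubring.mem_nonunits_iff_exists_mem_maximalIdeal] at hl
  obtain ⟨ha, hm⟩ := hl
  have h2 : (⟨(ℓ : Qb), ha⟩ : A) * ⟨(b : Qb), hbA⟩ = 1 := Subtype.ext h1
  exact (IsLocalRing.mem_maximalIdeal _).mp hm (IsUnit.of_mul_eq_one _ h2)

/-- TASK S19/A4-Unram. From `S36/Base`: `A0 A ≃+* Rp A` (both are `{c ∈ Qbar | c ∈ A, c ∈ L0 A}`),
`isDiscreteValuationRing_A0`, `irreducible_natCast` (uniformiser `ℓ`), `natCast_mem_nonunits_A0`,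
`exists_zpow_mul_mem`; `frob_mem`: `φ A = A` and `φ` normalises the inertia group (`intBase`);
`frob`: `φ a - a ^ ℓ` lies in the maximal ideal of `A` (`IsFrobeniusAt`) and in `L0 A`, hence is a
non-unit of the discrete valuation ring `Rp A`, hence divisible by `ℓ`. -/
theorem unramBase (hA : A.LiesOverPrime ℓ) (hφ : A.IsFrobeniusAt φ ℓ) :
    UnramBase ℓ (A.inertiaSubgroupIn ℚ) φ (Rp A) := by
  have hq : ℓ.Prime := Fact.out
  have hI := intBase hφ
  have hfm : ∀ a ∈ Rp A, φ a ∈ Rp A := by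
    intro a ha
    refine mem_Rp.mpr ⟨hI.frob_mem a (hI.le ha), fun σ hσ => ?_⟩
    have h1 := hI.fixes a ha _ (hI.normal σ hσ)
    have h2 : (φ⁻¹ * σ * φ) a = φ⁻¹ (σ (φ a)) := rfl
    rw [h2] at h1
    have h3 : φ (φ⁻¹ (σ (φ a))) = σ (φ a) := by
      show (φ * φ⁻¹) (σ (φ a)) = σ (φ a)
      rw [mul_inv_cancel]; rfl
    rw [← h3, h1]
  refine ⟨?_, Unram_unit_or_dvd hA, Unram_not_unit hA, ?_, hfm, ?_⟩
  · have := isDiscreteValuationRing_A0 hq hA
    exact IsPrincipalIdealRing.of_surjective (Unram_toRp A) (Unram_toRp_surjective A)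
  · intro c hc
    by_cases h0 : c = 0
    · exact ⟨0, by rw [h0, mul_zero]; exact (Rp A).zero_mem⟩
    obtain ⟨k, hk, -⟩ := exists_zpow_mul_mem hq hA (mem_L0_iff.mpr hc) h0
    have hl0 : (ℓ : Qb) ≠ 0 := by exact_mod_cast hq.ne_zero
    have hlA : (ℓ : Qb) ∈ A := natCast_mem A ℓ
    refine ⟨k.toNat, mem_Rp.mpr ⟨?_, fun σ hσ => ?_⟩⟩
    · have h1 : (ℓ : Qb) ^ k.toNat * c = (c * (ℓ : Qb) ^ k) * (ℓ : Qb) ^ ((k.toNat : ℤ) - k).toNat := by
        have h2 : (((k.toNat : ℤ) - k).toNat : ℤ) = (k.toNat : ℤ) - k :=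
          Int.toNat_of_nonneg (sub_nonneg.mpr (Int.self_le_toNat k))
        rw [← zpow_natCast (ℓ : Qb) ((k.toNat : ℤ) - k).toNat, h2, mul_assoc, ← zpow_add₀ hl0,
          add_sub_cancel, zpow_natCast, mul_comm]
      rw [h1]
      exact A.mul_mem _ _ hk (A.pow_mem hlA _)
    · rw [map_mul, map_pow, map_natCast, hc σ hσ]
  · intro a ha
    have hd : φ a - a ^ ℓ ∈ Rp A := (Rp A).sub_mem (hfm a ha) ((Rp A).pow_mem ha ℓ)
    rcases Unram_unit_or_dvd hA ⟨_, hd⟩ with hu | ⟨b, hb⟩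
    · exfalso
      obtain ⟨h, hfr⟩ := hφ
      have haA : a ∈ A := (mem_Rp.mp ha).1
      have h2 := hfr (IsLocalRing.residue A ⟨a, haA⟩)
      rw [← IsLocalRing.ResidueField.residue_smul, ← map_pow, ← sub_eq_zero, ← map_sub,
        IsLocalRing.residue_eq_zero_iff] at h2
      obtain ⟨b, hb⟩ := hu.exists_right_inv
      have hbA : (b : Qb) ∈ A := (mem_Rp.mp b.2).1
      have h1 : (φ a - a ^ ℓ) * (b : Qb) = 1 := by
        have := congrArg (fun z : Rp A => (z : Qb)) hb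
        simpa using this
      have h3 : (((⟨φ, h⟩ : A.decompositionSubgroup ℚ) • (⟨a, haA⟩ : A)) - (⟨a, haA⟩ : A) ^ ℓ)
          * ⟨(b : Qb), hbA⟩ = 1 := Subtype.ext h1
      exact (IsLocalRing.mem_maximalIdeal _).mp h2 (IsUnit.of_mul_eq_one _ h3)
    · refine ⟨b, b.2, ?_⟩
      have := congrArg (fun z : Rp A => (z : Qb)) hb
      simpa using this

end Fermat.Agent.S19.A
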