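import Fermat.Agent.S19.A.Lin.Prod
import Fermat.Agent.S19.A.Lin.Sep
import Fermat.Agent.S19.A.Lin.Eval
import Fermat.Agent.S19.A.Lin.Coeff
import Fermat.Agent.S19.A.Lin.Indep
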