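import Fermat.Agent.S19.A.HopfOfEval
import Fermat.Agent.S19.A.Lin

/-!
# S19 / A : the Hopf algebra of an order of functions, and its points

`H ⊂ (G → Ω)` an `R`-subalgebra with an `R`-basis which is an `Ω`-basis of all functions, closed under
comultiplication, counit, antipode.  Then `H` is a cocommutative Hopf algebra and
`G ≃ (H →ₐ[R] Ω)`, convolution corresponding to addition.
-/

set_option autoImplicit false

open scoped TensorProduct

namespace Fermat.Agent.S19.A

noncomputable section

variable {R Ω : Type*} [CommRing R] [Field Ω] [Algebra R Ω]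

/-- lifting an algebra hom along an injective algebra hom. -/
def liftInj {A B C : Type*} [CommRing A] [Algebra R A] [CommRing B] [Algebra R B] [CommRing C]
    [Algebra R C] (j : B →ₐ[R] C) (hj : Function.Injective j) (P : A →ₐ[R] C)
    (h : ∀ a, ∃ b, j b = P a) : A →ₐ[R] B where
  toFun a := (h a).choose
  map_one' := hj (by rw [(h 1).choose_spec]; simp)
  map_mul' x y := hj (by
    rw [(h (x * y)).choose_spec, map_mul, map_mul, (h x).choose_spec, (h y).choose_spec])
  map_zero' := hj (by rw [(h 0).choose_spec]; simp)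
  map_add' x y := hj (by
    rw [(h (x + y)).choose_spec, map_add, map_add, (h x).choose_spec, (h y).choose_spec])
  commutes' r := hj (by rw [(h _).choose_spec]; simp)

theorem liftInj_spec {A B C : Type*} [CommRing A] [Algebra R A] [CommRing B] [Algebra R B]
    [CommRing C] [Algebra R C] (j : B →ₐ[R] C) (hj : Function.Injective j) (P : A →ₐ[R] C)
    (h : ∀ a, ∃ b, j b = P a) (a : A) : j (liftInj j hj P h a) = P a := (h a).choose_spec

/-- an `R`-linear map to functions sending a basis to an `Ω`-independent family is injective. -/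
theorem injective_of_basis (inj0 : Function.Injective (algebraMap R Ω)) {M X ι : Type*}
    [AddCommGroup M] [Module R M] (e : M →ₗ[R] (X → Ω)) (b : Module.Basis ι R M)
    (hb : LinearIndependent Ω (fun i => e (b i))) : Function.Injective e := by
  have h1 : LinearIndependent R (fun i => e (b i)) := by
    refine hb.restrict_scalars ?_
    intro r s hrs
    apply inj0
    simpa [Algebra.smul_def] using hrs
  have h2 : e = (Finsupp.linearCombination R (fun i => e (b i))) ∘ₗ b.repr.toLinearMap := by
    apply b.ext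
    intro i
    simp
  rw [h2]
  exact (linearIndependent_iff_injective_finsuppLinearCombination.mp h1).comp b.repr.injective

/-- external products of realisations preserve "basis goes to an independent family". -/
theorem box_linearIndependent {H₁ H₂ X Y ι κ : Type*} [CommRing H₁] [Algebra R H₁] [CommRing H₂]
    [Algebra R H₂] (e₁ : H₁ →ₐ[R] (X → Ω)) (e₂ : H₂ →ₐ[R] (Y → Ω)) (b : Module.Basis ι R H₁)
    (c : Module.Basis κ R H₂) (hb : LinearIndependent Ω (fun i => e₁ (b i)))
    (hc : LinearIndependent Ω (fun j => e₂ (c j))) :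
    LinearIndependent Ω (fun p : ι × κ => box e₁ e₂ (b.tensorProduct c p)) := by
  have := linearIndependent_prod _ _ hb hc
  convert this using 2 with p
  funext z
  rw [Module.Basis.tensorProduct_apply, box_tmul]

variable {G : Type*} [AddCommGroup G]

/-- hypotheses on an order of functions. -/
structure ModelHyp (H : Subalgebra R (G → Ω)) : Prop where
  inj0 : Function.Injective (algebraMap R Ω)
  basis : ∃ (ι : Type) (_ : Fintype ι) (b : Module.Basis ι R H),
    LinearIndependent Ω (fun i => (b i : G → Ω)) ∧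
      Submodule.span Ω (Set.range fun i => (b i : G → Ω)) = ⊤
  comul : ∀ f ∈ H, ∃ (ι : Type) (_ : Fintype ι) (a b : ι → G → Ω), (∀ i, a i ∈ H) ∧
    (∀ i, b i ∈ H) ∧ ∀ x y, f (x + y) = ∑ i, a i x * b i y
  counit : ∀ f ∈ H, ∃ r : R, algebraMap R Ω r = f 0
  anti : ∀ f ∈ H, (fun x => f (-x)) ∈ H

namespace ModelHyp

variable {H : Subalgebra R (G → Ω)} (h : ModelHyp H)

include h in
theorem inj2 : Function.Injective (ev2 H.val) := by
  obtain ⟨ι, _, b, hb, -⟩ := h.basis
  exact injective_of_basis h.inj0 (ev2 H.val).toLinearMap (b.tensorProduct b)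
    (box_linearIndependent H.val H.val b b hb hb)

include h in
theorem inj3 : Function.Injective (ev3 H.val) := by
  obtain ⟨ι, _, b, hb, -⟩ := h.basis
  exact injective_of_basis h.inj0 (ev3 H.val).toLinearMap (b.tensorProduct (b.tensorProduct b))
    (box_linearIndependent H.val (ev2 H.val) b (b.tensorProduct b) hb
      (box_linearIndependent H.val H.val b b hb hb))

/-- the Hopf data. -/
def hopfData : HopfData H.val where
  inj0 := h.inj0
  inj1 := Subtype.val_injective
  inj2 := h.inj2
  inj3 := h.inj3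
  Δ := liftInj (ev2 H.val) h.inj2 ((pull R Ω (fun z : G × G => z.1 + z.2)).comp H.val) (by
    intro f
    obtain ⟨ι, _, a, b, ha, hb, hab⟩ := h.comul f f.2
    refine ⟨∑ i, (⟨a i, ha i⟩ : H) ⊗ₜ[R] (⟨b i, hb i⟩ : H), ?_⟩
    funext z
    simp [hab])
  ε := liftInj (Algebra.ofId R Ω) h.inj0 ((Pi.evalAlgHom R (fun _ => Ω) (0 : G)).comp H.val) (by
    intro f
    obtain ⟨r, hr⟩ := h.counit f f.2
    exact ⟨r, hr⟩)
  S := liftInj H.val Subtype.val_injective ((pull R Ω (fun z : G => -z)).comp H.val) (by
    intro f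
    exact ⟨⟨_, h.anti f f.2⟩, rfl⟩)
  hΔ f x y := congrFun (liftInj_spec (ev2 H.val) h.inj2 _ _ f) (x, y)
  hε f := liftInj_spec (Algebra.ofId R Ω) h.inj0 _ _ f
  hS f x := congrFun (liftInj_spec H.val Subtype.val_injective _ _ f) x

/-- evaluation at a point. -/
def _root_.Fermat.Agent.S19.A.evalHom (H : Subalgebra R (G → Ω)) (x : G) : H →ₐ[R] Ω :=
  (Pi.evalAlgHom R (fun _ => Ω) x).comp H.val

omit [AddCommGroup G] in
@[simp] theorem _root_.Fermat.Agent.S19.A.evalHom_apply (x : G) (f : H) :
    evalHom H x f = (f : G → Ω) x := rfl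

include h in
theorem eq_of_forall_eq {x y : G} (hxy : ∀ f ∈ H, f x = f y) : x = y := by
  classical
  obtain ⟨ι, _, b, -, hsp⟩ := h.basis
  have h1 : Submodule.span Ω (Set.range fun i => (b i : G → Ω)) ≤
      LinearMap.ker (LinearMap.proj (R := Ω) (φ := fun _ : G => Ω) x - LinearMap.proj y) := by
    rw [Submodule.span_le]
    rintro _ ⟨i, rfl⟩
    simp [hxy _ (b i).2]
  rw [hsp] at h1
  have h2 := h1 (Submodule.mem_top (x := (Pi.single x 1 : G → Ω)))
  by_contra hne
  simp [Ne.symm hne] at h2

include h in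
theorem evalHom_injective : Function.Injective (evalHom H) := by
  intro x y hxy
  exact h.eq_of_forall_eq fun f hf => DFunLike.congr_fun hxy (⟨f, hf⟩ : H)

include h in
theorem evalHom_surjective [Finite G] : Function.Surjective (evalHom H) := by
  intro φ
  obtain ⟨ι, _, b, hli, hsp⟩ := h.basis
  let B : Module.Basis ι Ω (G → Ω) := Module.Basis.mk hli hsp.ge
  have hB : ∀ i, B i = (b i : G → Ω) := fun i => by simp [B]
  let Φ : (G → Ω) →ₗ[Ω] Ω := B.constr Ω (fun i => φ (b i))
  have hΦB : ∀ i, Φ (b i : G → Ω) = φ (b i) := fun i => by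
    rw [← hB]; exact B.constr_basis Ω _ i
  have hΦ : ∀ f : H, Φ (f : G → Ω) = φ f := by
    intro f
    conv_lhs => rw [← b.sum_repr f]
    conv_rhs => rw [← b.sum_repr f]
    simp only [AddSubmonoidClass.coe_finsetSum, map_sum, map_smul]
    refine Finset.sum_congr rfl fun i _ => ?_
    have : (((b.repr f i) • b i : H) : G → Ω) = (algebraMap R Ω (b.repr f i)) • (b i : G → Ω) := by
      funext x
      simp [Algebra.smul_def]
    rw [this, map_smul, hΦB, smul_eq_mul, Algebra.smul_def]
  have hmul : (LinearMap.mul Ω (G → Ω)).compr₂ Φ = (LinearMap.mul Ω Ω).compl₁₂ Φ Φ := by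
    refine B.ext fun i => B.ext fun j => ?_
    simp only [LinearMap.compr₂_apply, LinearMap.mul_apply', LinearMap.compl₁₂_apply, hB]
    have := hΦ (b i * b j)
    rw [map_mul] at this
    rw [hΦB, hΦB, ← this]
    rfl
  let Ψ : (G → Ω) →ₐ[Ω] Ω := AlgHom.ofLinearMap Φ (by simpa using hΦ 1)
    (fun u v => by simpa using LinearMap.congr_fun (LinearMap.congr_fun hmul u) v)
  obtain ⟨x, hx⟩ := exists_eval_of_algHom Ψ
  refine ⟨x, ?_⟩
  ext f
  rw [evalHom_apply, ← hΦ]
  exact (hx _).symm

omit [AddCommGroup G] in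
theorem lift_evalHom (x y : G) (t : H ⊗[R] H) :
    Algebra.TensorProduct.lift (evalHom H x) (evalHom H y) (fun _ _ => .all ..) t
      = ev2 H.val t (x, y) := by
  induction t using TensorProduct.induction_on with
  | zero => simp
  | tmul a b => simp
  | add s₁ s₂ h₁ h₂ => simp only [map_add, Pi.add_apply, h₁, h₂]

/-- the points of the model. -/
def pointEquiv [Finite G] : WithConv (H →ₐ[R] Ω) ≃ G :=
  (WithConv.equiv _).trans (Equiv.ofBijective (evalHom H) ⟨h.evalHom_injective,
    h.evalHom_surjective⟩).symm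

theorem apply_eq [Finite G] (f : WithConv (H →ₐ[R] Ω)) (u : H) :
    f u = (u : G → Ω) (h.pointEquiv f) := by
  have : evalHom H (h.pointEquiv f) = f.ofConv :=
    (Equiv.ofBijective (evalHom H) ⟨h.evalHom_injective, h.evalHom_surjective⟩).apply_symm_apply _
  exact (DFunLike.congr_fun this u).symm

end ModelHyp

end

end Fermat.Agent.S19.A
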