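import Fermat.Agent.S19.A.Defs
import Fermat.Agent.S19.A.Model

/-!
# S19 / A : `ModelHyp` + equivariance ⇒ `HasFlatModel`
-/

set_option autoImplicit false

open scoped TensorProduct

namespace Fermat.Agent.S19.A

theorem hasFlatModel_of_modelHyp {ℓ : ℕ} {G : Type} [AddCommGroup G] [Finite G]
    {act : GQ → G → G} {H : Subalgebra (Zl ℓ) (G → Qb)} (h : ModelHyp H)
    (heq : ∀ f ∈ H, ∀ (σ : GQ) (x : G), f (act σ x) = σ (f x)) : HasFlatModel ℓ G act := by
  obtain ⟨ι, _, b, -, -⟩ := h.basis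
  refine ⟨H, inferInstance, h.hopfData.hopf, ?_, ?_, h.hopfData.isCocomm, h.pointEquiv, ?_, ?_⟩
  · exact Module.Finite.of_basis b
  · have : Module.Free (Zl ℓ) H := Module.Free.of_basis b
    exact Module.Flat.of_free
  · intro f g
    apply h.eq_of_forall_eq
    intro u hu
    letI := h.hopfData.hopf
    have h1 := h.apply_eq (f * g) ⟨u, hu⟩
    have hf : f.ofConv = evalHom H (h.pointEquiv f) := by
      ext v; exact h.apply_eq f v
    have hg : g.ofConv = evalHom H (h.pointEquiv g) := by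
      ext v; exact h.apply_eq g v
    have h2 := AlgHom.convMul_apply f g ⟨u, hu⟩
    have h3 := ModelHyp.lift_evalHom (H := H) (h.pointEquiv f) (h.pointEquiv g)
      (h.hopfData.Δ ⟨u, hu⟩)
    rw [h.hopfData.hΔ] at h3
    simp only at h1
    rw [← h1, h2]
    simp only [hf, hg]
    exact h3
  · intro σ f g hfg
    apply h.eq_of_forall_eq
    intro u hu
    rw [heq u hu]
    have h1 := h.apply_eq g ⟨u, hu⟩
    have h2 := h.apply_eq f ⟨u, hu⟩
    have h3 := hfg ⟨u, hu⟩
    simp only at h1 h2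
    rw [← h1, ← h2]
    exact h3

end Fermat.Agent.S19.A
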