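import Fermat.Agent.S19.A.Defs
import Fermat.Prelude.Def_ModularCurve_ArithmeticGalois

/-!
# S19 / A : from `HasFlatModel` on the torsion subgroup to the frozen statement of S19
-/

set_option autoImplicit false

open ModularCurve

namespace Fermat.Agent.S19.A

/-- the Galois action on the `n`-torsion of `J₀(p)`. -/
noncomputable def torsAct (p : ℕ) (n : ℤ) (σ : GQ) (x : Submodule.torsionBy ℤ (JZero p) n) :
    Submodule.torsionBy ℤ (JZero p) n :=
  ⟨σ • (x : JZero p), by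
    have hx := x.2
    rw [Submodule.mem_torsionBy_iff] at hx ⊢
    have h2 := map_zsmul (DistribSMul.toAddMonoidHom (JZero p) σ) n (x : JZero p)
    simp only [DistribSMul.toAddMonoidHom_apply] at h2
    rw [← h2, hx, smul_zero]⟩

@[simp] theorem coe_torsAct (p : ℕ) (n : ℤ) (σ : GQ) (x : Submodule.torsionBy ℤ (JZero p) n) :
    (torsAct p n σ x : JZero p) = σ • (x : JZero p) := rfl

/-- the frozen statement of S19 from `HasFlatModel`. -/
theorem frozen_of_hasFlatModel (p : ℕ) [NeZero p] (ℓ : ℕ) [Fact ℓ.Prime] (k : ℕ)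
    (h : HasFlatModel ℓ (Submodule.torsionBy ℤ (JZero p) ((ℓ : ℤ) ^ k))
      (torsAct p ((ℓ : ℤ) ^ k))) :
    ∃ (H : Type) (_ : CommRing H) (_ : HopfAlgebra (GaloisRep.ratLocalizedAt ℓ) H),
      Module.Finite (GaloisRep.ratLocalizedAt ℓ) H ∧ Module.Flat (GaloisRep.ratLocalizedAt ℓ) H ∧
      Coalgebra.IsCocomm (GaloisRep.ratLocalizedAt ℓ) H ∧
      ∃ e : WithConv (H →ₐ[GaloisRep.ratLocalizedAt ℓ] AlgebraicClosure ℚ) ≃
          ↥(Submodule.torsionBy ℤ (JZero p) ((ℓ : ℤ) ^ k)),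
        (∀ f g, e (f * g) = e f + e g) ∧
        ∀ (σ : AlgebraicClosure ℚ ≃ₐ[ℚ] AlgebraicClosure ℚ)
          (f g : WithConv (H →ₐ[GaloisRep.ratLocalizedAt ℓ] AlgebraicClosure ℚ)),
          (∀ h : H, g h = σ (f h)) → ((e g : JZero p)) = σ • (e f : JZero p) := by
  obtain ⟨H, i1, i2, h1, h2, h3, e, he, hσ⟩ := h
  exact ⟨H, i1, i2, h1, h2, h3, e, he, fun σ f g hfg => by rw [hσ σ f g hfg]; rfl⟩

end Fermat.Agent.S19.A
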